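import Mathlib

/-!
# PROJECT T (S56), block Count: the abstract prime selection and the counting chain

No cohomology here: pure finite linear algebra.

* `exists_finset_jointKer_eq_bot` / `exists_injective_jointKer_eq_bot` : **prime selection**.
  `V` a finite dimensional `k`-space (the dual Selmer group `D`), `lam q : V →ₗ[k] W q` a family of
  linear maps (the localisation maps `D → H¹_unr(D_q, M')`), `adm` a predicate (`q` is a
  Taylor–Wiles prime of level `n`).  If every `ψ ≠ 0` is detected by an admissible `q` outside any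
  given finite set, then there are exactly `r = dim V` distinct admissible indices outside a given
  finite set `T` whose joint kernel is trivial.
* `card_le_pow_of_chain` : the arithmetic of the counting chain
  `card Tan ≤ card Sel_Q`, `card Sel_Q * card D ≤ card Sel_∅ * (card k)^r * card D_Q`,
  `card D_Q = 1`, `card Sel_∅ ≤ card D` `⟹` `card Tan ≤ (card k)^r`.
-/

set_option autoImplicit false

namespace Fermat.Agent.S56.Count.Select

open Module

section Selection

variable {k : Type*} [Field k] {V : Type*} [AddCommGroup V] [Module k V]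
variable {ι : Type*} {W : ι → Type*} [∀ q, AddCommGroup (W q)] [∀ q, Module k (W q)]

/-- the joint kernel of the maps `lam q`, `q ∈ Q` -/
def jointKer (lam : ∀ q, V →ₗ[k] W q) (Q : Finset ι) : Submodule k V :=
  ⨅ q ∈ Q, LinearMap.ker (lam q)

theorem mem_jointKer (lam : ∀ q, V →ₗ[k] W q) (Q : Finset ι) (ψ : V) :
    ψ ∈ jointKer lam Q ↔ ∀ q ∈ Q, lam q ψ = 0 := by
  simp [jointKer, Submodule.mem_iInf, LinearMap.mem_ker]

theorem jointKer_insert_le [DecidableEq ι] (lam : ∀ q, V →ₗ[k] W q) (Q : Finset ι) (q : ι) :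
    jointKer lam (insert q Q) ≤ jointKer lam Q := by
  intro ψ hψ
  rw [mem_jointKer] at hψ ⊢
  exact fun q' hq' => hψ q' (Finset.mem_insert_of_mem hq')

theorem jointKer_insert_lt [DecidableEq ι] (lam : ∀ q, V →ₗ[k] W q) (Q : Finset ι) (q : ι)
    {ψ : V} (hψ : ψ ∈ jointKer lam Q) (hq : lam q ψ ≠ 0) :
    jointKer lam (insert q Q) < jointKer lam Q := by
  refine lt_of_le_of_ne (jointKer_insert_le lam Q q) fun h => ?_
  rw [← h, mem_jointKer] at hψ
  exact hq (hψ q (Finset.mem_insert_self q Q))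

variable [FiniteDimensional k V]

/-- **prime selection**, `Finset` form -/
theorem exists_finset_jointKer_eq_bot [DecidableEq ι] (lam : ∀ q, V →ₗ[k] W q) (adm : ι → Prop)
    (h : ∀ (T : Finset ι) (ψ : V), ψ ≠ 0 → ∃ q, q ∉ T ∧ adm q ∧ lam q ψ ≠ 0) (T : Finset ι) :
    ∃ Q : Finset ι, Q.card = finrank k V ∧ Disjoint Q T ∧ (∀ q ∈ Q, adm q) ∧
      jointKer lam Q = ⊥ := by
  -- the invariant: `card Q = j`, `dim (jointKer Q) + j ≤ dim V`
  have key : ∀ j : ℕ, j ≤ finrank k V → ∃ Q : Finset ι, Q.card = j ∧ Disjoint Q T ∧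
      (∀ q ∈ Q, adm q) ∧ finrank k (jointKer lam Q) + j ≤ finrank k V := by
    intro j
    induction j with
    | zero =>
      intro _
      exact ⟨∅, rfl, Finset.disjoint_empty_left T, fun q hq => absurd hq (Finset.notMem_empty q),
        by simpa using Submodule.finrank_le _⟩
    | succ j ih =>
      intro hj
      obtain ⟨Q, hQc, hQT, hQa, hQd⟩ := ih (by omega)
      -- a nonzero vector of the current joint kernel if there is one, of `V` otherwise
      have hex : ∃ ψ : V, ψ ≠ 0 ∧ (jointKer lam Q ≠ ⊥ → ψ ∈ jointKer lam Q) := by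
        by_cases hK : jointKer lam Q = ⊥
        · have hV : 0 < finrank k V := by omega
          obtain ⟨ψ, hψ⟩ := Module.finrank_pos_iff_exists_ne_zero.mp hV
          exact ⟨ψ, hψ, fun h => absurd hK h⟩
        · obtain ⟨ψ, hψK, hψ0⟩ := Submodule.exists_mem_ne_zero_of_ne_bot hK
          exact ⟨ψ, hψ0, fun _ => hψK⟩
      obtain ⟨ψ, hψ0, hψK⟩ := hex
      obtain ⟨q, hqT, hqa, hqψ⟩ := h (T ∪ Q) ψ hψ0
      have hqT' : q ∉ T := fun hq => hqT (Finset.mem_union_left Q hq)
      have hqQ : q ∉ Q := fun hq => hqT (Finset.mem_union_right T hq)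
      refine ⟨insert q Q, by rw [Finset.card_insert_of_notMem hqQ, hQc], ?_, ?_, ?_⟩
      · rw [Finset.disjoint_insert_left]
        exact ⟨hqT', hQT⟩
      · intro q' hq'
        rcases Finset.mem_insert.mp hq' with rfl | hq'
        · exact hqa
        · exact hQa q' hq'
      · by_cases hK : jointKer lam Q = ⊥
        · have h1 : jointKer lam (insert q Q) = ⊥ :=
            le_bot_iff.mp (hK ▸ jointKer_insert_le lam Q q)
          rw [h1, finrank_bot]
          omega
        · have hlt := Submodule.finrank_lt_finrank_of_lt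
            (jointKer_insert_lt lam Q q (hψK hK) hqψ)
          omega
  obtain ⟨Q, hQc, hQT, hQa, hQd⟩ := key (finrank k V) le_rfl
  refine ⟨Q, hQc, hQT, hQa, ?_⟩
  have h0 : finrank k (jointKer lam Q) = 0 := by omega
  exact Submodule.finrank_eq_zero.mp h0

/-- **prime selection**, indexed form: `r = dim V` distinct admissible indices outside `T` whose
joint kernel is trivial -/
theorem exists_injective_jointKer_eq_bot (lam : ∀ q, V →ₗ[k] W q) (adm : ι → Prop)
    (h : ∀ (T : Finset ι) (ψ : V), ψ ≠ 0 → ∃ q, q ∉ T ∧ adm q ∧ lam q ψ ≠ 0) (T : Finset ι) :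
    ∃ qv : Fin (finrank k V) → ι, Function.Injective qv ∧ (∀ i, qv i ∉ T ∧ adm (qv i)) ∧
      ∀ ψ : V, (∀ i, lam (qv i) ψ = 0) → ψ = 0 := by
  classical
  obtain ⟨Q, hQc, hQT, hQa, hQK⟩ := exists_finset_jointKer_eq_bot lam adm h T
  let e : Fin (finrank k V) ≃ Q := (Q.equivFin.trans (finCongr hQc)).symm
  refine ⟨fun i => (e i : ι), fun i j hij => e.injective (Subtype.ext hij), fun i => ⟨?_, ?_⟩,
    fun ψ hψ => ?_⟩
  · exact fun hT => Finset.disjoint_left.mp hQT (e i).2 hT
  · exact hQa _ (e i).2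
  · have hmem : ψ ∈ jointKer lam Q := by
      rw [mem_jointKer]
      intro q hq
      have h1 : lam ((e (e.symm ⟨q, hq⟩) : Q) : ι) ψ = 0 := hψ (e.symm ⟨q, hq⟩)
      rwa [Equiv.apply_symm_apply] at h1
    rw [hQK] at hmem
    exact (Submodule.mem_bot k).mp hmem

end Selection

/-- **the arithmetic of the counting chain** (all cardinalities are natural numbers) -/
theorem card_le_pow_of_chain {cTan cSelQ cSel0 cD cDQ ck r : ℕ} (hD : 0 < cD)
    (h6 : cTan ≤ cSelQ) (h1I : cSelQ * cD ≤ cSel0 * ck ^ r * cDQ) (h5 : cDQ = 1)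
    (h1II : cSel0 ≤ cD) : cTan ≤ ck ^ r := by
  subst h5
  have h2 : cTan * cD ≤ ck ^ r * cD :=
    calc cTan * cD ≤ cSelQ * cD := Nat.mul_le_mul_right _ h6
      _ ≤ cSel0 * ck ^ r * 1 := h1I
      _ = cSel0 * ck ^ r := Nat.mul_one _
      _ ≤ cD * ck ^ r := Nat.mul_le_mul_right _ h1II
      _ = ck ^ r * cD := Nat.mul_comm _ _
  exact Nat.le_of_mul_le_mul_right h2 hD

end Fermat.Agent.S56.Count.Select
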