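/-
PROJECT T (S56), block Count (chief helper8): THE COUNTING CHAIN of chief posts #3864 (3) / #3924 (1),
in abstract form.

All inputs of the other blocks enter as explicit hypotheses in their literal shapes, so that this
file depends only on the interface `S56/Coh/Defs` and on the abstract prime selection
`S56/Count/Select`:

* `hbase`  (a1-II) : `card Sel(Smin, L, M) ≤ card Sel(Smin, L', M')` (`L' = L^⊥`);
* `hstep`  (a1-I)  : `card Sel(Smin ∪ Q, L_Q, M) * card D ≤ card Sel(Smin, L, M) * (card k)^#Q * cDQ Q`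
                     for every admissible `Q`, where `D = Sel(Smin, L', M')`;
* `hDQ`            : `cDQ Q = 1` as soon as no non-zero class of `D` is locally trivial at all
                     `q ∈ Q`;
* `hdet`   (a5)    : every non-zero class of `D` is detected by an admissible prime outside any
                     given finite set.

Output: `∃ r, ∀ n, ∃ Q, #Q = r ∧ (Q admissible of depth n) ∧ card Sel(Smin ∪ Q, L_Q, M) ≤ (card k)^r`,
with `r = dim_k D` independent of `n`: the hypothesis `hCount` of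
`S56/Main/Unpack.halfFinset_of_count`.
-/
import Fermat.Agent.S56.Coh.Defs
import Fermat.Agent.S56.Count.Select

set_option autoImplicit false

namespace Fermat.Agent.S56.Count.Main

open CategoryTheory groupCohomology Module
open Fermat.Agent.CFT.LC Fermat.Agent.CFT.Bridge Fermat.Agent.S56.Coh
open Fermat.Agent.S56.Count.Select

variable {k : Type} [CommRing k] {A : Rep.{0} k GQ}

/-! ### Localisation of Selmer classes -/

/-- The local `H¹` at `q`, as `Z1/B1`. -/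
abbrev H1loc (q : ℕ) [Fact q.Prime] (A : Rep.{0} k GQ) : Type :=
  ↥(Z1 (Dq q) A) ⧸ (B1 (Dq q) A).comap (Z1 (Dq q) A).subtype

/-- Restriction of Selmer cocycles to `D_q`. -/
noncomputable def locZ (q : ℕ) [Fact q.Prime] (Sg : Finset ℕ) (Lc : LocCond A) :
    ↥(SelZ Sg Lc) →ₗ[k] ↥(Z1 (Dq q) A) :=
  (resZ (Dq q) A).comp (Submodule.inclusion (SelZ_le_Z1g Sg Lc))

@[simp] lemma locZ_apply (q : ℕ) [Fact q.Prime] (Sg : Finset ℕ) (Lc : LocCond A)
    (c : ↥(SelZ Sg Lc)) (s : ↥(Dq q)) : (locZ q Sg Lc c).1 s = c.1 s := rfl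

/-- Restriction of Selmer classes to `D_q`: the localisation map `Sel → H¹(D_q, A)`. -/
noncomputable def locMap (q : ℕ) [Fact q.Prime] (Sg : Finset ℕ) (Lc : LocCond A) :
    Sel Sg Lc →ₗ[k] H1loc q A :=
  Submodule.mapQ _ _ (locZ q Sg Lc) (by
    intro c hc
    rw [Submodule.mem_comap] at hc ⊢
    exact resFun_mem_B1 (Dq q) hc)

lemma locMap_mk (q : ℕ) [Fact q.Prime] (Sg : Finset ℕ) (Lc : LocCond A) (c : ↥(SelZ Sg Lc)) :
    locMap q Sg Lc (Submodule.Quotient.mk c) = Submodule.Quotient.mk (locZ q Sg Lc c) := rfl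

/-- A Selmer class is locally trivial at `q` iff the restriction of a representing cocycle to
`D_q` is a coboundary. -/
lemma locMap_mk_eq_zero_iff (q : ℕ) [Fact q.Prime] (Sg : Finset ℕ) (Lc : LocCond A)
    (c : ↥(SelZ Sg Lc)) :
    locMap q Sg Lc (Submodule.Quotient.mk c) = 0 ↔ resFun (Dq q) c.1 ∈ B1 (Dq q) A := by
  rw [locMap_mk, Submodule.Quotient.mk_eq_zero, Submodule.mem_comap]
  rfl

/-! ### The chain -/

section Chain

variable {k : Type} [Field k] {M M' : Rep.{0} k GQ}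

/-- primes are prime (local instance for the index type `Nat.Primes`) -/
local instance factPrimes (q : Nat.Primes) : Fact (q : ℕ).Prime := ⟨q.2⟩

/-- **The counting chain.**  `r = dim_k Sel(Smin, L', M')`. -/
theorem exists_card_sel_le
    (Smin : Finset ℕ) (Lc : LocCond M) (Lc' : LocCond M') (LcQ : Finset ℕ → LocCond M)
    [Finite (Sel Smin Lc')]
    (adm : ℕ → ℕ → Prop) (hadm : ∀ n q, adm n q → q.Prime)
    (cDQ : Finset ℕ → ℕ)
    (hbase : Nat.card (Sel Smin Lc) ≤ Nat.card (Sel Smin Lc'))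
    (hstep : ∀ (n : ℕ) (Q : Finset ℕ), Disjoint Q Smin → (∀ q ∈ Q, adm n q) →
      Nat.card (Sel (Smin ∪ Q) (LcQ Q)) * Nat.card (Sel Smin Lc') ≤
        Nat.card (Sel Smin Lc) * Nat.card k ^ Q.card * cDQ Q)
    (hDQ : ∀ Q : Finset ℕ, (∀ q ∈ Q, q.Prime) →
      (∀ y : Sel Smin Lc', (∀ (q : ℕ) [Fact q.Prime], q ∈ Q → locMap q Smin Lc' y = 0) → y = 0) →
      cDQ Q = 1)
    (hdet : ∀ (n : ℕ) (T : Finset ℕ) (y : Sel Smin Lc'), y ≠ 0 →
      ∃ (q : ℕ) (_ : Fact q.Prime), q ∉ T ∧ adm n q ∧ locMap q Smin Lc' y ≠ 0)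
    (T₀ : Finset ℕ) :
    ∃ r : ℕ, ∀ n : ℕ, ∃ Q : Finset ℕ, Q.card = r ∧ (∀ q ∈ Q, adm n q) ∧ Disjoint Q T₀ ∧
      Disjoint Q Smin ∧ Nat.card (Sel (Smin ∪ Q) (LcQ Q)) ≤ Nat.card k ^ r := by
  classical
  have : Module.Finite k (Sel Smin Lc') := Module.Finite.of_finite
  refine ⟨finrank k (Sel Smin Lc'), fun n => ?_⟩
  -- the index type: primes
  let lam : ∀ q : Nat.Primes, Sel Smin Lc' →ₗ[k] H1loc q.1 M' := fun q => locMap q.1 Smin Lc'
  have hsel : ∀ (T : Finset Nat.Primes) (ψ : Sel Smin Lc'), ψ ≠ 0 →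
      ∃ q : Nat.Primes, q ∉ T ∧ adm n q.1 ∧ lam q ψ ≠ 0 := by
    intro T ψ hψ
    obtain ⟨q, hq, hqT, hqa, hqψ⟩ := hdet n (T.map ⟨Subtype.val, Subtype.val_injective⟩) ψ hψ
    refine ⟨⟨q, hq.out⟩, fun h => hqT ?_, hqa, hqψ⟩
    exact Finset.mem_map.mpr ⟨⟨q, hq.out⟩, h, rfl⟩
  -- primes to avoid: `T₀ ∪ Smin`
  let T : Finset Nat.Primes := (T₀ ∪ Smin).subtype Nat.Prime
  obtain ⟨Q', hQc, hQT, hQa, hQK⟩ :=
    exists_finset_jointKer_eq_bot (k := k) (V := Sel Smin Lc')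
      (W := fun q : Nat.Primes => H1loc q.1 M') lam (fun q : Nat.Primes => adm n q.1) hsel T
  let Q : Finset ℕ := Q'.map ⟨Subtype.val, Subtype.val_injective⟩
  have hQmem : ∀ q, q ∈ Q ↔ ∃ h : q.Prime, (⟨q, h⟩ : Nat.Primes) ∈ Q' := by
    intro q
    constructor
    · intro h
      obtain ⟨q', hq', rfl⟩ := Finset.mem_map.mp h
      exact ⟨q'.2, hq'⟩
    · rintro ⟨h, hq'⟩
      exact Finset.mem_map.mpr ⟨⟨q, h⟩, hq', rfl⟩
  have hQcard : Q.card = finrank k (Sel Smin Lc') := (Finset.card_map _).trans hQc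
  have hQadm : ∀ q ∈ Q, adm n q := by
    intro q hq
    obtain ⟨h, hq'⟩ := (hQmem q).mp hq
    exact hQa _ hq'
  have hQdisj : ∀ q ∈ Q, q ∉ T₀ ∪ Smin := by
    intro q hq hqT
    obtain ⟨h, hq'⟩ := (hQmem q).mp hq
    exact Finset.disjoint_left.mp hQT hq' (Finset.mem_subtype.mpr hqT)
  have hQT₀ : Disjoint Q T₀ :=
    Finset.disjoint_left.mpr fun q hq hqT => hQdisj q hq (Finset.mem_union_left _ hqT)
  have hQS : Disjoint Q Smin :=
    Finset.disjoint_left.mpr fun q hq hqT => hQdisj q hq (Finset.mem_union_right _ hqT)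
  refine ⟨Q, hQcard, hQadm, hQT₀, hQS, ?_⟩
  -- `cDQ Q = 1`
  have h5 : cDQ Q = 1 := by
    refine hDQ Q (fun q hq => hadm n q (hQadm q hq)) fun y hy => ?_
    have hmem : y ∈ jointKer (k := k) (V := Sel Smin Lc')
        (W := fun q : Nat.Primes => H1loc q.1 M') lam Q' := by
      rw [mem_jointKer]
      intro q hq
      exact hy q.1 ((hQmem q.1).mpr ⟨q.2, hq⟩)
    rw [hQK] at hmem
    exact (Submodule.mem_bot k).mp hmem
  have hD : 0 < Nat.card (Sel Smin Lc') := Nat.card_pos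
  have h1 := hstep n Q hQS hQadm
  rw [hQcard] at h1
  exact card_le_pow_of_chain hD le_rfl h1 h5 hbase

end Chain

end Fermat.Agent.S56.Count.Main
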