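/-
PROJECT T (S56), block Count (chief helper8): THE CONCRETE COUNT.

The counting chain `S56/Count/Main.exists_card_sel_le` instantiated with

* (a1-I)  `S56/TW/TWPrime.card_step_Mrep`, `isTWPrime_Mrep`, `S56/TW/DQS.card_DQ_eq_one` and
          `S56/TW/OfResidual.rbar_unr_of_hmin` (helper21), for the pairing interface
          `S56/Coh/LocPairing`,
* (a5)    `S56/Cheb/Galois/Export.exists_tw_prime_of_mem_Z1g` (helper9),

for `M = Mrep rbar = ad⁰ ρbar`, `M' = MrepTw rbar = ad⁰ ρbar (1)`, the local conditions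
`LcFam rbar p Smin Pp` of `S56/Coh/CocDefs` (helper18) and a local pairing `LP`.  What remains
as explicit hypotheses are exactly the exports of the blocks that are still being typed:

* `hMain`  (a5-G)  : `twSet_nonempty` of `S56/Grp` (helper2 + helper1),
* `LP`, `hbase` (a1-II) : the local pairing and the base inequality
          `card Sel(Smin, L) ≤ card Sel(Smin, L^⊥)` of `S56/Base` (helper23, helper4),
* `hfin`, `hfin'` (B0) : finiteness of the Selmer groups (`S56/Base/Dict`).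

Output: the hypothesis `hCount` of `S56/Main/Unpack.halfFinset_of_count` with
`N Q = Nat.card (Sel (Smin ∪ Q) (LocCond.ofLocal (LcFam rbar p Smin Pp)))` (= helper18's `SelT`).
-/
import Fermat.Agent.S56.Count.Main
import Fermat.Agent.S56.TW.TWPrime
import Fermat.Agent.S56.TW.DQS
import Fermat.Agent.S56.TW.OfResidual
import Fermat.Agent.S56.Cheb.Galois.Export
import Fermat.Agent.S56.Main.Unpack
import Fermat.Agent.Lib.FrobeniusExists

set_option autoImplicit false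

namespace Fermat.Agent.S56.Count.Concrete

open CategoryTheory groupCohomology Polynomial Matrix
open Fermat.Agent.CFT.LC Fermat.Agent.CFT.Bridge Fermat.Agent.CFT.LocalBridge
open Fermat.Agent.S56.Coh Fermat.Agent.S56.Coh.CocDefs
open Fermat.Agent.S56.Count.Main Fermat.Agent.S56.TW.Step Fermat.Agent.S56.TW.TWPrime
open Fermat.Agent.S56.TW.DQS Fermat.Agent.S56.Main.Unpack

variable {k : Type} [Field k]

/-- the admissible primes of depth `n`: the literal Taylor–Wiles clauses of S56, `q ≠ p`, and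
`ρbar` unramified at `q` -/
def Adm (p : ℕ) (ρbar : ResidualGaloisRep k) (S : Finset ℕ) (n q : ℕ) : Prop :=
  Fermat.Agent.S56.Main.Unpack.IsTWPrime p n ρbar S q ∧ q ≠ p ∧ ρbar.IsUnramifiedAt q

/-- `2 ≠ 0` in odd characteristic -/
theorem two_ne_zero_of_charP (p : ℕ) [Fact p.Prime] [CharP k p] (hp2 : p ≠ 2) : (2 : k) ≠ 0 := by
  intro h
  have h1 : ((2 : ℕ) : k) = 0 := by exact_mod_cast h
  rw [CharP.cast_eq_zero_iff k p] at h1
  exact hp2 ((Nat.prime_dvd_prime_iff_eq (Fact.out : p.Prime) Nat.prime_two).1 h1)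

/-- a Frobenius element of the fixed place `padicPlace q`; it lies in `D_q` -/
theorem exists_frobenius_mem_Dq (q : ℕ) [Fact q.Prime] :
    ∃ φ : GQ, φ ∈ Dq q ∧ (padicPlace q).IsFrobeniusAt φ q := by
  obtain ⟨φ, hφ⟩ := Fermat.Agent.Lib.FrobeniusExists.exists_isFrobeniusAt
    (L := AlgebraicClosure ℚ) (padicPlace q) (Fact.out : q.Prime) (liesOverPrime_padicPlace q)
  exact ⟨φ, hφ.mem_decompositionSubgroup, hφ⟩

variable (rbar : GQ →* GL (Fin 2) k)

/-- **the hypotheses of the Taylor–Wiles step at an admissible prime** -/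
theorem isTWPrime_of_adm [Finite k] (p : ℕ) [Fact p.Prime] [CharP k p] (hp2 : p ≠ 2)
    (ρbar : ResidualGaloisRep k) (b : Module.Basis (Fin 2) k ρbar.V)
    (hb : ∀ g, (rbar g : Matrix (Fin 2) (Fin 2) k) = LinearMap.toMatrix b b (ρbar.ρ g))
    (S : Finset ℕ) (n q : ℕ) [Fact q.Prime] (h : Adm p ρbar S n q) :
    Fermat.Agent.S56.TW.Step.IsTWPrime p (Mrep rbar) (MrepTw rbar) q := by
  obtain ⟨⟨⟨_, _, hdvd⟩, hfrob⟩, hqp, hunr⟩ := h
  obtain ⟨φ, hφD, hφ⟩ := exists_frobenius_mem_Dq q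
  obtain ⟨α, β, hαβ, hchar⟩ := hfrob (padicPlace q) (liesOverPrime_padicPlace q) φ hφ
  refine isTWPrime_Mrep rbar (Fact.out : p.Prime) (two_ne_zero_of_charP p hp2) q hqp
    (dvd_trans (dvd_pow_self p (Nat.succ_ne_zero n)) hdvd) ?_ φ hφD ?_
  · intro s hs
    refine Units.ext ?_
    rw [hb s, hunr (padicPlace q) (liesOverPrime_padicPlace q) s hs, Units.val_one]
    exact LinearMap.toMatrix_one b
  · refine notScalar_of_charpoly hαβ ?_
    rw [hb φ, LinearMap.charpoly_toMatrix]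
    exact hchar

/-- **THE CONCRETE COUNT**: the hypothesis `hCount` of `Unpack.halfFinset_of_count`. -/
theorem exists_count [Finite k] (p : ℕ) [Fact p.Prime] [CharP k p] (hp2 : p ≠ 2)
    (ρbar : ResidualGaloisRep k) (habs : ρbar.IsAbsolutelyIrreducible)
    (hdet : (GaloisRepAdic.ofResidualGaloisRep ρbar).DetIsCyclotomic p)
    (hsplit : ∀ σ : GQ, ∃ α β : k, LinearMap.charpoly (ρbar.ρ σ) = (X - C α) * (X - C β))
    (hTW : ∀ (K : Type) [Field K] [Algebra k K] (G : Subgroup GQ), G.index = 2 →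
      ∀ V : Submodule K (ρbar.baseChange K).V,
        (∀ σ ∈ G, ∀ x ∈ V, (ρbar.baseChange K).ρ σ x ∈ V) → V = ⊥ ∨ V = ⊤)
    (S Smin : Finset ℕ) (hpSmin : p ∈ Smin) (hSmin : Smin ⊆ S) (hS : ∀ q ∈ S, q.Prime)
    (hmin : ∀ q : ℕ, q.Prime → q ≠ p → (q ∈ Smin ↔ ¬ ρbar.IsUnramifiedAt q))
    (b : Module.Basis (Fin 2) k ρbar.V)
    (hb : ∀ g, (rbar g : Matrix (Fin 2) (Fin 2) k) = LinearMap.toMatrix b b (ρbar.ρ g))
    (hMain : ∀ (n : ℕ) (G : Type) [Group G] [Finite G] (π : G →* GL (Fin 2) k)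
      (χ : G →* (ZMod (p ^ (n + 1)))ˣ), Grp.TWHyp p n π χ →
        ∀ c : G → Matrix (Fin 2) (Fin 2) k, Grp.IsCocycle π c →
          ¬ Grp.IsCoboundary π c → (Grp.twSet π χ c).Nonempty)
    (Pp : GaloisRepAdic (DualNumber k) → Prop)
    (LP : LocPairing p (Mrep rbar) (MrepTw rbar))
    (hbase : Nat.card (Sel Smin (LocCond.ofLocal (LcFam rbar p Smin Pp))) ≤
      Nat.card (Sel Smin (LocCond.ofLocal (LP.perp (LcFam rbar p Smin Pp)))))
    (hfin : ∀ (Sg : Finset ℕ) (Lc : LocCond (Mrep rbar)), Finite (Sel Sg Lc))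
    (hfin' : ∀ (Sg : Finset ℕ) (Lc : LocCond (MrepTw rbar)), Finite (Sel Sg Lc)) :
    ∃ r : ℕ, ∀ n : ℕ, ∃ Q : Finset ℕ, Q.card = r ∧
      (∀ q ∈ Q, Fermat.Agent.S56.Main.Unpack.IsTWPrime p n ρbar S q) ∧
      Nat.card (Sel (Smin ∪ Q) (LocCond.ofLocal (LcFam rbar p Smin Pp))) ≤ Nat.card k ^ r := by
  classical
  have := hfin' Smin (LocCond.ofLocal (LP.perp (LcFam rbar p Smin Pp)))
  have hSminP : ∀ q ∈ Smin, q.Prime := fun q hq => hS q (hSmin hq)
  have key := exists_card_sel_le (k := k) (M := Mrep rbar) (M' := MrepTw rbar) Smin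
    (LocCond.ofLocal (LcFam rbar p Smin Pp))
    (LocCond.ofLocal (LP.perp (LcFam rbar p Smin Pp)))
    (fun _ => LocCond.ofLocal (LcFam rbar p Smin Pp))
    (Adm p ρbar S) (fun n q h => h.1.1.1)
    (fun Q => Nat.card (Fermat.Agent.S56.TW.StepS.DQ LP Smin Q (LcFam rbar p Smin Pp))) hbase ?_ ?_ ?_ S
  · obtain ⟨r, hr⟩ := key
    refine ⟨r, fun n => ?_⟩
    obtain ⟨Q, hQc, hQa, _, _, hQle⟩ := hr n
    exact ⟨Q, hQc, fun q hq => (hQa q hq).1, hQle⟩
  · -- (a1-I) the Taylor–Wiles step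
    intro n Q hdisj hQa
    have := hfin (Smin ∪ Q) (LocCond.ofLocal (LcFam rbar p Smin Pp))
    exact card_step_Mrep rbar LP Smin Q hpSmin hSminP (fun q hq => (hQa q hq).1.1.1)
      hdisj.symm (fun q _ hq => isTWPrime_of_adm rbar p hp2 ρbar b hb S n q (hQa q hq))
      (Fermat.Agent.S56.TW.OfResidual.rbar_unr_of_hmin ρbar b rbar hb hpSmin hmin) Pp
  · -- `card D_Q = 1`
    intro Q _ hQ
    refine card_DQ_eq_one LP Smin Q (LcFam rbar p Smin Pp) fun y hy hloc => ?_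
    have h0 := hQ (Submodule.Quotient.mk ⟨y, hy⟩) fun q _ hq =>
      (locMap_mk_eq_zero_iff q Smin _ ⟨y, hy⟩).2 (hloc q hq)
    rw [Submodule.Quotient.mk_eq_zero, Submodule.mem_comap] at h0
    exact h0
  · -- (a5) detection of non-trivial classes
    intro n T y hy
    obtain ⟨c, rfl⟩ := Submodule.Quotient.mk_surjective _ y
    have hcZ : c.1 ∈ Z1g (MrepTw rbar) := c.2.1
    have hcB : c.1 ∉ B1g (MrepTw rbar) := by
      intro hB
      apply hy
      rw [Submodule.Quotient.mk_eq_zero, Submodule.mem_comap]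
      exact hB
    obtain ⟨l, hl, hlT, hlp, hdvd, hunr, h⟩ :=
      Fermat.Agent.S56.Cheb.Galois.Export.exists_tw_prime_of_mem_Z1g rbar p ρbar habs hdet hsplit
        hTW b hb n (hMain n) c.1 hcZ hcB (T ∪ S)
    have : Fact l.Prime := ⟨hl⟩
    refine ⟨l, ⟨hl⟩, fun hT => hlT (Finset.mem_union_left S hT), ⟨⟨⟨hl, fun hS' =>
      hlT (Finset.mem_union_right T hS'), hdvd⟩, fun P hP φ hφ => ((h P hP).2 φ hφ).1⟩, hlp, hunr⟩,
      ?_⟩
    rw [Ne, locMap_mk_eq_zero_iff]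
    intro hB
    obtain ⟨φ, hφD, hφ⟩ := exists_frobenius_mem_Dq l
    obtain ⟨a, _, ha⟩ := (mem_B₁_iff _).1 hB
    have h1 := congrFun ha ⟨φ, hφD⟩
    refine ((h (padicPlace l) (liesOverPrime_padicPlace l)).2 φ hφ).2 ⟨a, ?_⟩
    rw [d₀₁_hom_apply] at h1
    exact h1.symm

end Fermat.Agent.S56.Count.Concrete
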