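/-
PROJECT T (S56), block Count (chief helper8): THE TWO HALVES IN FINSET FORM.

`halfFinset_so`, `halfFinset_fl` : the two inputs of `S56/Main/Unpack.frozen_of_halves`, from

* the concrete count `S56/Count/Concrete.exists_count` (a1-I + a5 + the chain),
* the tangent-space seam `S56/Tan/Final.exists_surjective_so / _fl` and `exists_rbar` (a6),

with the exports of the blocks that are still being typed as explicit hypotheses, in the literal
shape in which `S56/Main/Assemble` will supply them: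

* `hMain` (a5-G)  : `twSet_nonempty` of `S56/Grp`;
* `hBase` (a1-II) : for every matrix form `rbar` of `ρbar`, a local pairing `LP` together with the
                    base inequality `card Sel(Smin, L) ≤ card Sel(Smin, L^⊥)` for `L = LcFam rbar p
                    Smin Pp` (the local bounds (a2) (a3) (a4) are consumed INSIDE `S56/Base`);
* `hFin`  (B0)    : finiteness of all Selmer groups of `Mrep rbar` and `MrepTw rbar`.
-/
import Fermat.Agent.S56.Count.Concrete
import Fermat.Agent.S56.Tan.Final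

set_option autoImplicit false

namespace Fermat.Agent.S56.Count.Halves

open Polynomial IsLocalRing
open Fermat.Agent.CFT.LC Fermat.Agent.CFT.Bridge
open Fermat.Agent.S56.Coh Fermat.Agent.S56.Coh.CocDefs
open Fermat.Agent.S56.Main.Unpack Fermat.Agent.S56.Tan.Cocycle Fermat.Agent.S56.Tan.Main
open Fermat.Agent.S56.Count.Concrete

/-- the export of (a1-II) consumed by the count: a local pairing and the base inequality -/
def BaseExport {k : Type} [Field k] (p : ℕ) (Smin : Finset ℕ) (rbar : GQ →* GL (Fin 2) k)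
    (Pp : GaloisRepAdic (DualNumber k) → Prop) : Prop :=
  ∃ LP : LocPairing p (Mrep rbar) (MrepTw rbar),
    Nat.card (Sel Smin (LocCond.ofLocal (LcFam rbar p Smin Pp))) ≤
      Nat.card (Sel Smin (LocCond.ofLocal (LP.perp (LcFam rbar p Smin Pp))))

/-- the export of (B0) consumed by the count: all Selmer groups are finite -/
def FinExport {k : Type} [Field k] (rbar : GQ →* GL (Fin 2) k) : Prop :=
  (∀ (Sg : Finset ℕ) (Lc : LocCond (Mrep rbar)), Finite (Sel Sg Lc)) ∧
    ∀ (Sg : Finset ℕ) (Lc : LocCond (MrepTw rbar)), Finite (Sel Sg Lc)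

/-- the export of (a5-G): `twSet_nonempty` -/
def GrpExport (k : Type) [Field k] (p : ℕ) [CharP k p] : Prop :=
  ∀ (n : ℕ) (G : Type) [Group G] [Finite G] (π : G →* GL (Fin 2) k)
    (χ : G →* (ZMod (p ^ (n + 1)))ˣ), Grp.TWHyp p n π χ →
      ∀ c : G → Matrix (Fin 2) (Fin 2) k, Grp.IsCocycle π c →
        ¬ Grp.IsCoboundary π c → (Grp.twSet π χ c).Nonempty

variable {𝒪 : Type} [CommRing 𝒪] [IsDomain 𝒪] [IsDiscreteValuationRing 𝒪]
  [IsAdicComplete (maximalIdeal 𝒪) 𝒪] [Finite (ResidueField 𝒪)]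

/-- **one half, generic in the local predicate at `p`** -/
theorem halfFinset_of_exports (p : ℕ) [Fact p.Prime] [CharP (ResidueField 𝒪) p] (hp2 : p ≠ 2)
    (ρbar : ResidualGaloisRep (ResidueField 𝒪)) (habs : ρbar.IsAbsolutelyIrreducible)
    (hdet : (GaloisRepAdic.ofResidualGaloisRep ρbar).DetIsCyclotomic p)
    (hsplit : ∀ σ : GQ, ∃ α β : ResidueField 𝒪,
      LinearMap.charpoly (ρbar.ρ σ) = (X - C α) * (X - C β))
    (hTW : ∀ (K : Type) [Field K] [Algebra (ResidueField 𝒪) K] (G : Subgroup GQ), G.index = 2 →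
      ∀ V : Submodule K (ρbar.baseChange K).V,
        (∀ σ ∈ G, ∀ x ∈ V, (ρbar.baseChange K).ρ σ x ∈ V) → V = ⊥ ∨ V = ⊤)
    (S Smin : Finset ℕ) (hpSmin : p ∈ Smin) (hSmin : Smin ⊆ S) (hS : ∀ q ∈ S, q.Prime)
    (hmin : ∀ q : ℕ, q.Prime → q ≠ p → (q ∈ Smin ↔ ¬ ρbar.IsUnramifiedAt q))
    (b : Module.Basis (Fin 2) (ResidueField 𝒪) ρbar.V)
    (rbar : GQ →* GL (Fin 2) (ResidueField 𝒪))
    (hb : ∀ g, (rbar g : Matrix (Fin 2) (Fin 2) (ResidueField 𝒪)) =
      LinearMap.toMatrix b b (ρbar.ρ g))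
    (Pp : GaloisRepAdic (DualNumber (ResidueField 𝒪)) → Prop) (cond : Finset ℕ → Cond 𝒪)
    (hT6 : ∀ (r : ℕ) (Q : Finset ℕ), Finite (SelT rbar p Smin Q Pp) →
      Nat.card (SelT rbar p Smin Q Pp) ≤ Nat.card (ResidueField 𝒪) ^ r →
      ∀ DQ : GaloisRep.DeformationRingData 𝒪 ρbar (cond Q),
        ∃ γ : MvPowerSeries (Fin r) 𝒪 →ₐ[𝒪] DQ.R, Function.Surjective γ)
    (hMain : GrpExport (ResidueField 𝒪) p) (hBase : BaseExport p Smin rbar Pp)
    (hFin : FinExport rbar) : HalfFinset p ρbar S cond := by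
  obtain ⟨LP, hbase⟩ := hBase
  refine halfFinset_of_count
    (fun Q => Nat.card (Sel (Smin ∪ Q) (LocCond.ofLocal (LcFam rbar p Smin Pp)))) ?_ ?_
  · intro r Q hN
    exact hT6 r Q (hFin.1 _ _) hN
  · exact exists_count rbar p hp2 ρbar habs hdet hsplit hTW S Smin hpSmin hSmin hS hmin b hb hMain Pp
      LP hbase hFin.1 hFin.2

/-- **the two halves of S56 in Finset form**, from the exports of the open blocks. -/
theorem halves_of_exports (p : ℕ) [Fact p.Prime] (hp2 : p ≠ 2)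
    (ρbar : ResidualGaloisRep (ResidueField 𝒪)) (habs : ρbar.IsAbsolutelyIrreducible)
    (hdet : (GaloisRepAdic.ofResidualGaloisRep ρbar).DetIsCyclotomic p)
    (hsplit : ∀ σ : GQ, ∃ α β : ResidueField 𝒪,
      LinearMap.charpoly (ρbar.ρ σ) = (X - C α) * (X - C β))
    (hTW : ∀ (K : Type) [Field K] [Algebra (ResidueField 𝒪) K] (G : Subgroup GQ), G.index = 2 →
      ∀ V : Submodule K (ρbar.baseChange K).V,
        (∀ σ ∈ G, ∀ x ∈ V, (ρbar.baseChange K).ρ σ x ∈ V) → V = ⊥ ∨ V = ⊤)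
    (S Smin : Finset ℕ) (hpSmin : p ∈ Smin) (hSmin : Smin ⊆ S) (hS : ∀ q ∈ S, q.Prime)
    (hmin : ∀ q : ℕ, q.Prime → q ≠ p → (q ∈ Smin ↔ ¬ ρbar.IsUnramifiedAt q))
    (hMain : ∀ [CharP (ResidueField 𝒪) p], GrpExport (ResidueField 𝒪) p)
    (hBase : ∀ (b : Module.Basis (Fin 2) (ResidueField 𝒪) ρbar.V)
      (rbar : GQ →* GL (Fin 2) (ResidueField 𝒪)),
      (∀ g, (rbar g : Matrix (Fin 2) (Fin 2) (ResidueField 𝒪)) =
        LinearMap.toMatrix b b (ρbar.ρ g)) →
      BaseExport p Smin rbar (Pso p) ∧ BaseExport p Smin rbar (Pfl p) ∧ FinExport rbar) :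
    HalfFinset p ρbar S (soCond 𝒪 p Smin) ∧ HalfFinset p ρbar S (flCond 𝒪 p Smin) := by
  have : CharP (ResidueField 𝒪) p :=
    Fermat.Agent.S56.Cheb.Galois.CycChar.charP_of_detIsCyclotomic p ρbar hdet
  obtain ⟨b, rbar, hrbar, hb, e0⟩ := Fermat.Agent.S56.Tan.Final.exists_rbar ρbar
  obtain ⟨hso, hfl, hFin⟩ := hBase b rbar hb
  refine ⟨?_, ?_⟩
  · refine halfFinset_of_exports p hp2 ρbar habs hdet hsplit hTW S Smin hpSmin hSmin hS hmin b rbar hb
      (Pso p) (soCond 𝒪 p Smin) ?_ hMain hso hFin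
    intro r Q hfin hN DQ
    have := hfin
    exact Fermat.Agent.S56.Tan.Final.exists_surjective_so rbar hrbar e0 p Smin Q hN DQ
  · refine halfFinset_of_exports p hp2 ρbar habs hdet hsplit hTW S Smin hpSmin hSmin hS hmin b rbar hb
      (Pfl p) (flCond 𝒪 p Smin) ?_ hMain hfl hFin
    intro r Q hfin hN DQ
    have := hfin
    exact Fermat.Agent.S56.Tan.Final.exists_surjective_fl rbar hrbar e0 p Smin Q hN DQ

end Fermat.Agent.S56.Count.Halves
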